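import Mathlib.Analysis.SpecialFunctions.Elliptic.Weierstrass
import Mathlib.NumberTheory.ModularForms.EisensteinSeries.QExpansion
import Mathlib.NumberTheory.LSeries.HurwitzZetaValues
import Mathlib.Analysis.Normed.Group.Tannery
import Mathlib.Analysis.SpecificLimits.Normed

/-!
# The `q`-series of `℘`

`℘(z; τ) / (2πi)² = 1/12 + g(u) + ∑_{c ≥ 1} (g(q^c u) + g(q^c / u) - 2 g(q^c))` with
`g(u) = u / (1 - u)²`, for every `z` outside the lattice `ℤ + ℤτ`.
-/

set_option autoImplicit false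

noncomputable section

namespace Fermat.Agent.RED.Kernel

open Filter Topology Complex
open scoped PeriodPair Real UpperHalfPlane

/-- The lattice `ℤ + ℤτ`. -/
def tauPair (τ : ℍ) : PeriodPair where
  ω₁ := 1
  ω₂ := (τ : ℂ)
  indep := by
    refine (LinearIndependent.pair_iff' (by norm_num)).mpr fun a ha => ?_
    have := congrArg Complex.im ha
    simp at this
    exact τ.im_ne_zero this.symm

theorem mem_tauPair_lattice {τ : ℍ} {z : ℂ} :
    z ∈ (tauPair τ).lattice ↔ ∃ m n : ℤ, (m : ℂ) + n * τ = z := by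
  simp [PeriodPair.mem_lattice, tauPair]

/-- `exp (2πi z)`. -/
def expE (z : ℂ) : ℂ := Complex.exp (2 * π * Complex.I * z)

theorem expE_add (z w : ℂ) : expE (z + w) = expE z * expE w := by
  rw [expE, expE, expE, ← Complex.exp_add]; ring_nf

theorem expE_neg (z : ℂ) : expE (-z) = (expE z)⁻¹ := by
  rw [expE, expE, ← Complex.exp_neg]; ring_nf

theorem expE_int (n : ℤ) : expE n = 1 := by
  rw [expE, mul_comm]; exact Complex.exp_int_mul_two_pi_mul_I n

theorem expE_eq_one_iff (z : ℂ) : expE z = 1 ↔ ∃ n : ℤ, z = n := by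
  rw [expE, Complex.exp_eq_one_iff]
  refine ⟨fun ⟨n, hn⟩ => ⟨n, ?_⟩, fun ⟨n, hn⟩ => ⟨n, by rw [hn]; ring⟩⟩
  apply mul_left_cancel₀ Complex.two_pi_I_ne_zero
  rw [hn]; ring

theorem norm_expE (z : ℂ) : ‖expE z‖ = Real.exp (-(2 * π) * z.im) := by
  rw [expE, Complex.norm_exp]
  simp [Complex.mul_re, Complex.mul_im]

/-- `u ↦ u / (1-u)²`. -/
def gSer {F : Type*} [Field F] (u : F) : F := u / (1 - u) ^ 2

theorem gSer_inv {F : Type*} [Field F] (u : F) : gSer u⁻¹ = gSer u := by
  rcases eq_or_ne u 0 with rfl | hu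
  · simp [gSer]
  rcases eq_or_ne u 1 with rfl | hu1
  · simp [gSer]
  have h : 1 - u ≠ 0 := sub_ne_zero.mpr (Ne.symm hu1)
  have h' : u - 1 ≠ 0 := sub_ne_zero.mpr hu1
  rw [gSer, gSer]
  field_simp
  ring

theorem norm_gSer_le {u : ℂ} {r : ℝ} (h : ‖u‖ ≤ r) (hr : r < 1) :
    ‖gSer u‖ ≤ ‖u‖ / (1 - r) ^ 2 := by
  have h1 : (1 - r : ℝ) ≤ ‖1 - u‖ := by
    calc (1 - r : ℝ) ≤ ‖(1 : ℂ)‖ - ‖u‖ := by rw [norm_one]; linarith
      _ ≤ ‖1 - u‖ := norm_sub_norm_le _ _
  have h0 : (0 : ℝ) < 1 - r := by linarith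
  rw [gSer, norm_div, norm_pow]
  exact div_le_div_of_nonneg_left (norm_nonneg _) (pow_pos h0 2)
    (pow_le_pow_left₀ h0.le h1 2)

/-- `∑ 1/(w+n)²`, with the convention `1/0 = 0`. -/
def rowSum (w : ℂ) : ℂ := ∑' n : ℤ, 1 / (w + n) ^ 2

theorem summable_rowSum (w : ℂ) : Summable fun n : ℤ => 1 / (w + n) ^ 2 := by
  have h := EisensteinSeries.linear_right_summable w 1 (k := 2) (by norm_num)
  refine h.congr fun n => ?_
  simp [one_div]

theorem rowSum_neg (w : ℂ) : rowSum (-w) = rowSum w := by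
  rw [rowSum, rowSum, ← (Equiv.neg ℤ).tsum_eq]
  refine tsum_congr fun n => ?_
  rw [show -w + ((Equiv.neg ℤ) n : ℂ) = -(w + n) by simp; ring, Even.neg_pow even_two]

theorem rowSum_zero : rowSum 0 = (π : ℂ) ^ 2 / 3 := by
  have h := two_mul_riemannZeta_eq_tsum_int_inv_pow_of_even (k := 2) le_rfl even_two
  rw [show ((2 : ℕ) : ℂ) = 2 by norm_num, riemannZeta_two] at h
  rw [rowSum]
  simp only [zero_add, one_div]
  rw [← h]
  ring

theorem rowSum_of_im_pos {w : ℂ} (h : 0 < w.im) :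
    rowSum w = (2 * π * Complex.I) ^ 2 * gSer (expE w) := by
  have hq := EisensteinSeries.qExpansion_identity (k := 1) le_rfl ⟨w, h⟩
  simp only [pow_one, Nat.factorial_one, Nat.cast_one, div_one, one_add_one_eq_two] at hq
  have hn : ‖expE w‖ < 1 := by
    rw [norm_expE, Real.exp_lt_one_iff]
    nlinarith [Real.pi_pos]
  rw [rowSum, gSer, ← tsum_coe_mul_geometric_of_norm_lt_one hn, hq]
  simp only [expE]
  ring

theorem rowSum_eq_gSer {w : ℂ} (hw : ∀ n : ℤ, w ≠ n) :
    rowSum w = (2 * π * Complex.I) ^ 2 * gSer (expE w) := by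
  rcases lt_trichotomy w.im 0 with h | h | h
  · rw [← rowSum_neg, rowSum_of_im_pos (by simpa using h), expE_neg, gSer_inv]
  · -- a real point is a limit of points of the upper half plane
    have hpath : ContinuousAt (fun t : ℝ => w + (t : ℂ) * Complex.I) 0 := by fun_prop
    have h1 : Tendsto (fun t : ℝ => rowSum (w + (t : ℂ) * Complex.I)) (𝓝[>] 0) (𝓝 (rowSum w)) := by
      refine tendsto_tsum_of_dominated_convergence
        (bound := fun n : ℤ => ‖1 / (w + n) ^ 2‖) (summable_rowSum w).norm (fun n => ?_) ?_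
      · have hne : w + (n : ℂ) ≠ 0 := by
          intro h0
          exact hw (-n) (by push_cast; linear_combination h0)
        have hc : ContinuousAt (fun t : ℝ => 1 / (w + (t : ℂ) * Complex.I + n) ^ 2) 0 := by
          refine ContinuousAt.div continuousAt_const (by fun_prop) ?_
          simpa using pow_ne_zero 2 hne
        simpa using hc.tendsto.mono_left nhdsWithin_le_nhds
      · filter_upwards with t n
        have hne : 0 < ‖w + (n : ℂ)‖ := by
          rw [norm_pos_iff]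
          intro h0
          exact hw (-n) (by push_cast; linear_combination h0)
        simp only [norm_div, norm_one, norm_pow]
        gcongr
        have e1 : (w + (n : ℂ)).im = 0 := by simp [h]
        rw [Complex.norm_def, Complex.norm_def]
        apply Real.sqrt_le_sqrt
        simp only [Complex.normSq_apply]
        simp [h]
        nlinarith
    have h2 : Tendsto (fun t : ℝ => (2 * π * Complex.I) ^ 2 * gSer (expE (w + (t : ℂ) * Complex.I)))
        (𝓝[>] 0) (𝓝 ((2 * π * Complex.I) ^ 2 * gSer (expE w))) := by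
      have hne : 1 - expE w ≠ 0 := by
        intro h0
        obtain ⟨n, hn⟩ := (expE_eq_one_iff w).mp (sub_eq_zero.mp h0).symm
        exact hw n hn
      have hc : ContinuousAt
          (fun t : ℝ => (2 * π * Complex.I) ^ 2 * gSer (expE (w + (t : ℂ) * Complex.I))) 0 := by
        unfold gSer expE
        refine continuousAt_const.mul (ContinuousAt.div (by fun_prop) (by fun_prop) ?_)
        simpa [expE] using pow_ne_zero 2 hne
      simpa using hc.tendsto.mono_left nhdsWithin_le_nhds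
    refine tendsto_nhds_unique (h1.congr' ?_) h2
    filter_upwards [self_mem_nhdsWithin] with t ht
    exact rowSum_of_im_pos (by simpa [h] using ht)
  · exact rowSum_of_im_pos h

theorem hasSum_wp_prod (τ : ℍ) (z : ℂ) :
    HasSum (fun p : ℤ × ℤ => 1 / (z + p.1 * τ + p.2) ^ 2 - 1 / ((p.1 : ℂ) * τ + p.2) ^ 2)
      (℘[tauPair τ] z) := by
  have h := (tauPair τ).hasSum_weierstrassP z
  set e : ℤ × ℤ ≃ (tauPair τ).lattice :=
    ((Equiv.prodComm ℤ ℤ).trans (tauPair τ).latticeEquivProd.symm.toEquiv).trans (Equiv.neg _)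
  refine (e.hasSum_iff.mpr h).congr_fun fun p => ?_
  have he : ((e p : (tauPair τ).lattice) : ℂ) = -((p.1 : ℂ) * τ + p.2) := by
    rw [show ((e p : (tauPair τ).lattice) : ℂ) = -(((tauPair τ).latticeEquivProd.symm (p.2, p.1) : (tauPair τ).lattice) : ℂ) from rfl,
      PeriodPair.latticeEquiv_symm_apply]
    simp [tauPair]
    ring
  simp only [Function.comp_apply, he]
  rw [Even.neg_pow even_two, show z - -((p.1 : ℂ) * τ + p.2) = z + p.1 * τ + p.2 by ring]

theorem hasSum_wp_rows (τ : ℍ) (z : ℂ) :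
    HasSum (fun b : ℤ => rowSum (z + b * τ) - rowSum (b * τ)) (℘[tauPair τ] z) := by
  refine (hasSum_wp_prod τ z).prod_fiberwise fun b => ?_
  exact (summable_rowSum (z + b * τ)).hasSum.sub (summable_rowSum (b * τ)).hasSum

/-- The `c`-th term of the series of `℘(z; τ)/(2πi)²`. -/
def wpTerm (z τ : ℂ) (c : ℕ) : ℂ :=
  gSer (expE ((c + 1) * τ + z)) + gSer (expE ((c + 1) * τ - z)) - 2 * gSer (expE ((c + 1) * τ))

/-- `℘ / (2πi)²`. -/
def wpN (τ : ℍ) (z : ℂ) : ℂ := ℘[tauPair τ] z / (2 * π * Complex.I) ^ 2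

theorem hasSum_wpTerm {τ : ℍ} {z : ℂ} (hz : z ∉ (tauPair τ).lattice) :
    HasSum (wpTerm z τ) (wpN τ z - (gSer (expE z) + 1 / 12)) := by
  have hzb : ∀ b n : ℤ, z + b * τ ≠ n := fun b n h =>
    hz (mem_tauPair_lattice.mpr ⟨n, -b, by push_cast; linear_combination -h⟩)
  have hb : ∀ b : ℤ, b ≠ 0 → ∀ n : ℤ, (b : ℂ) * τ ≠ n := fun b hb0 n h => by
    have := congrArg Complex.im h
    simp [hb0, τ.im_ne_zero] at this
  have hpi : (2 * π * Complex.I : ℂ) ^ 2 ≠ 0 := pow_ne_zero 2 Complex.two_pi_I_ne_zero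
  have h := ((hasSum_wp_rows τ z).div_const ((2 * π * Complex.I) ^ 2)).nat_add_neg
  rw [← hasSum_nat_add_iff' 1] at h
  simp only [Finset.sum_range_one, Nat.cast_zero, neg_zero, Int.cast_zero, zero_mul, add_zero,
    rowSum_zero] at h
  rw [rowSum_eq_gSer (fun n => by simpa using hzb 0 n)] at h
  have hv : ∀ A B C : ℂ, B = C → A / (2 * π * Complex.I) ^ 2 + B - (B + C) =
      A / (2 * π * Complex.I) ^ 2 - C := fun A B C h => by rw [h]; ring
  rw [hv _ _ _ rfl] at h
  have hC : ((2 * (π : ℂ) * Complex.I) ^ 2 * gSer (expE z) - (π : ℂ) ^ 2 / 3)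
      / (2 * π * Complex.I) ^ 2 = gSer (expE z) + 1 / 12 := by
    field_simp
    ring_nf
    simp only [Complex.I_sq]
    ring
  rw [hC] at h
  refine h.congr_fun fun c => ?_
  have hc : ((c + 1 : ℕ) : ℤ) ≠ 0 := by omega
  rw [rowSum_eq_gSer (hzb _), rowSum_eq_gSer (hzb _), rowSum_eq_gSer (hb _ hc),
    rowSum_eq_gSer (hb _ (neg_ne_zero.mpr hc))]
  simp only [wpTerm]
  push_cast
  rw [show z + -((c : ℂ) + 1) * τ = -(((c : ℂ) + 1) * τ - z) by ring,
    show -((c : ℂ) + 1) * τ = -(((c : ℂ) + 1) * τ) by ring, expE_neg, expE_neg, gSer_inv,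
    gSer_inv, add_comm z]
  field_simp
  ring

theorem wpN_eq {τ : ℍ} {z : ℂ} (hz : z ∉ (tauPair τ).lattice) :
    wpN τ z = gSer (expE z) + 1 / 12 + ∑' c, wpTerm z τ c := by
  rw [(hasSum_wpTerm hz).tsum_eq]
  ring

end Fermat.Agent.RED.Kernel
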