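import Mathlib.Analysis.SpecialFunctions.Elliptic.Weierstrass
import Mathlib.Analysis.Normed.Module.Connected
import Mathlib.Analysis.Analytic.Order
import Mathlib.Analysis.Calculus.Deriv.Pow
import Mathlib.Analysis.Calculus.Deriv.Inv

/-!
# The addition theorem for the Weierstrass `℘`-function

The chord formula is proved through the second order differential equation
`℘'' = 6℘² - g₂/2`: both sides solve it and agree to first order at `0`.
-/

set_option autoImplicit false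

noncomputable section

namespace Fermat.Agent.RED.Kernel

open Filter Topology Set
open scoped PeriodPair

variable (L : PeriodPair)

theorem countable_lattice : (L.lattice : Set ℂ).Countable :=
  countable_of_Lindelof_of_discrete (X := L.lattice)

theorem hasDerivAt_wp {z : ℂ} (hz : z ∉ L.lattice) : HasDerivAt ℘[L] (℘'[L] z) z := by
  have h := ((L.analyticOnNhd_weierstrassP z hz).differentiableAt).hasDerivAt
  have h2 := L.eqOn_deriv_weierstrassPExcept_derivWeierstrassPExcept (L.ω₁ / 2) (x := z)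
    (by simp [hz])
  rw [L.weierstrassPExcept_of_notMem _ L.ω₁_div_two_notMem_lattice,
    L.derivWeierstrassPExcept_of_notMem _ L.ω₁_div_two_notMem_lattice] at h2
  rwa [h2] at h

/-- `℘` with the pole at `0` removed. -/
abbrev wpReg (z : ℂ) : ℂ := ℘[L - (0 : ℂ)] z

theorem wp_eq_reg (z : ℂ) : ℘[L] z = wpReg L z + 1 / z ^ 2 := by
  have h := L.weierstrassPExcept_add (0 : L.lattice) z
  simp only [ZeroMemClass.coe_zero, sub_zero] at h
  rw [← h]; simp [wpReg]

theorem dwp_eq_reg (z : ℂ) : ℘'[L] z = ℘'[L - (0 : ℂ)] z - 2 / z ^ 3 := by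
  have h := L.derivWeierstrassPExcept_sub (0 : L.lattice) z
  simp only [ZeroMemClass.coe_zero, sub_zero] at h
  exact h.symm

theorem eventually_notMem_lattice (x : ℂ) : ∀ᶠ z in 𝓝[≠] x, z ∉ L.lattice := by
  filter_upwards [self_mem_nhdsWithin,
    mem_nhdsWithin_of_mem_nhds (L.compl_lattice_sdiff_singleton_mem_nhds x)] with z hz hz'
  simp_all

theorem eventually_wp_ne_zero (v : ℂ) : ∀ᶠ z in 𝓝[≠] (0 : ℂ), ℘[L] z ≠ v := by
  have hreg : ContinuousAt (wpReg L) 0 := (L.analyticAt_weierstrassPExcept 0).continuousAt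
  have h : Tendsto (fun z => 1 + z ^ 2 * (wpReg L z - v)) (𝓝 0) (𝓝 1) := by
    have : ContinuousAt (fun z => 1 + z ^ 2 * (wpReg L z - v)) 0 :=
      continuousAt_const.add ((continuousAt_id.pow 2).mul (hreg.sub continuousAt_const))
    simpa [ContinuousAt] using this
  filter_upwards [self_mem_nhdsWithin,
    mem_nhdsWithin_of_mem_nhds (h.eventually_ne one_ne_zero)] with z hz h1 h2
  apply h1
  rw [← h2, wp_eq_reg L z]
  field_simp [show z ≠ 0 from hz]
  ring

theorem isPreconnected_compl_of_countable {s : Set ℂ} (hs : s.Countable) :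
    IsPreconnected sᶜ :=
  (hs.isConnected_compl_of_one_lt_rank (by simp)).2

/-- `℘` takes no value on an open set of points. -/
theorem eventually_wp_ne {b : ℂ} (hb : b ∉ L.lattice) (v : ℂ) :
    ∀ᶠ z in 𝓝[≠] b, ℘[L] z ≠ v := by
  rcases (L.analyticOnNhd_weierstrassP b hb).eventually_eq_or_eventually_ne
    (analyticAt_const (v := v)) with h | h
  · exfalso
    have hall := (L.analyticOnNhd_weierstrassP).eqOn_of_preconnected_of_eventuallyEq
      (analyticOnNhd_const (v := v)) (isPreconnected_compl_of_countable (countable_lattice L))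
      hb h
    obtain ⟨z, hz1, hz2⟩ := ((eventually_wp_ne_zero L v).and (eventually_notMem_lattice L 0)).exists
    exact hz1 (hall hz2)
  · exact h

theorem dwp_not_eventually_zero :
    ¬ EqOn ℘'[L] 0 (L.lattice : Set ℂ)ᶜ := by
  intro h
  have hb := L.ω₁_div_two_notMem_lattice
  have hall : EqOn ℘[L] (fun _ => ℘[L] (L.ω₁ / 2)) (L.lattice : Set ℂ)ᶜ := by
    apply IsOpen.eqOn_of_deriv_eq (𝕜 := ℂ) L.isClosed_lattice.isOpen_compl
      (isPreconnected_compl_of_countable (countable_lattice L))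
      L.differentiableOn_weierstrassP (differentiableOn_const _) (fun z hz => ?_) hb rfl
    rw [(hasDerivAt_wp L hz).deriv, h hz]
    simp
  obtain ⟨z, hz1, hz2⟩ := ((eventually_wp_ne_zero L (℘[L] (L.ω₁ / 2))).and
    (eventually_notMem_lattice L 0)).exists
  exact hz1 (hall hz2)

/-- `℘'' = 6 ℘² - g₂ / 2`. -/
theorem hasDerivAt_dwp {z : ℂ} (hz : z ∉ L.lattice) :
    HasDerivAt ℘'[L] (6 * ℘[L] z ^ 2 - L.g₂ / 2) z := by
  set U : Set ℂ := (L.lattice : Set ℂ)ᶜ
  have hUo : IsOpen U := L.isClosed_lattice.isOpen_compl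
  have hF : AnalyticOnNhd ℂ (fun w => deriv ℘'[L] w - (6 * ℘[L] w ^ 2 - L.g₂ / 2)) U := by
    intro w hw
    have h1 := (L.analyticOnNhd_derivWeierstrassP w hw).deriv
    have h2 := L.analyticOnNhd_weierstrassP w hw
    fun_prop
  have hmul : ∀ w ∈ U, ℘'[L] w * (deriv ℘'[L] w - (6 * ℘[L] w ^ 2 - L.g₂ / 2)) = 0 := by
    intro w hw
    have h1 := ((L.analyticOnNhd_derivWeierstrassP w hw).differentiableAt).hasDerivAt
    have hp := hasDerivAt_wp L hw
    have heq : (fun x => ℘'[L] x ^ 2) =ᶠ[𝓝 w]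
        (fun x => 4 * ℘[L] x ^ 3 - L.g₂ * ℘[L] x - L.g₃) := by
      filter_upwards [hUo.mem_nhds hw] with x hx using L.derivWeierstrassP_sq x hx
    have hu := ((h1.fun_pow 2).congr_of_eventuallyEq heq.symm).unique
      ((((hp.fun_pow 3).const_mul 4).sub (hp.const_mul L.g₂)).sub_const L.g₃)
    push_cast at hu
    linear_combination hu / 2
  rcases AnalyticOnNhd.eq_zero_or_eq_zero_of_mul_eq_zero L.analyticOnNhd_derivWeierstrassP hF
    hmul (isPreconnected_compl_of_countable (countable_lattice L)) with h | h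
  · exact (dwp_not_eventually_zero L h).elim
  · have h1 := ((L.analyticOnNhd_derivWeierstrassP z hz).differentiableAt).hasDerivAt
    rwa [sub_eq_zero.mp (h z hz)] at h1

/-- Chord abscissa. -/
def chordX (b z : ℂ) : ℂ :=
  ((℘'[L] z - ℘'[L] b) / (℘[L] z - ℘[L] b)) ^ 2 / 4 - ℘[L] z - ℘[L] b

/-- Chord ordinate. -/
def chordY (b z : ℂ) : ℂ :=
  (℘'[L] z - ℘'[L] b) / (℘[L] z - ℘[L] b) * (℘[L] z - chordX L b z) - ℘'[L] z

theorem hasDerivAt_slope {b z : ℂ} (hb : b ∉ L.lattice) (hz : z ∉ L.lattice)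
    (hne : ℘[L] z ≠ ℘[L] b) :
    HasDerivAt (fun w => (℘'[L] w - ℘'[L] b) / (℘[L] w - ℘[L] b))
      (2 * (℘[L] z - chordX L b z)) z := by
  have hD : ℘[L] z - ℘[L] b ≠ 0 := sub_ne_zero.mpr hne
  have h := ((hasDerivAt_dwp L hz).sub_const (℘'[L] b)).fun_div
    ((hasDerivAt_wp L hz).sub_const (℘[L] b)) hD
  refine h.congr_deriv ?_
  have hP := L.derivWeierstrassP_sq z hz
  have hB := L.derivWeierstrassP_sq b hb
  rw [chordX]
  field_simp
  linear_combination (-4 : ℂ) * hP + (4 : ℂ) * hB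

theorem hasDerivAt_chordX {b z : ℂ} (hb : b ∉ L.lattice) (hz : z ∉ L.lattice)
    (hne : ℘[L] z ≠ ℘[L] b) : HasDerivAt (chordX L b) (chordY L b z) z := by
  have h := ((((hasDerivAt_slope L hb hz hne).fun_pow 2).div_const 4).fun_sub
    (hasDerivAt_wp L hz)).sub_const (℘[L] b)
  refine h.congr_deriv ?_
  rw [chordY]
  push_cast
  ring

theorem hasDerivAt_chordY {b z : ℂ} (hb : b ∉ L.lattice) (hz : z ∉ L.lattice)
    (hne : ℘[L] z ≠ ℘[L] b) :
    HasDerivAt (chordY L b) (6 * chordX L b z ^ 2 - L.g₂ / 2) z := by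
  have hD : ℘[L] z - ℘[L] b ≠ 0 := sub_ne_zero.mpr hne
  have h := ((hasDerivAt_slope L hb hz hne).fun_mul
    ((hasDerivAt_wp L hz).fun_sub (hasDerivAt_chordX L hb hz hne))).fun_sub (hasDerivAt_dwp L hz)
  refine h.congr_deriv ?_
  have hP := L.derivWeierstrassP_sq z hz
  have hB := L.derivWeierstrassP_sq b hb
  rw [chordY, chordX]
  field_simp
  linear_combination (32 * (℘[L] z - ℘[L] b) ^ 3) * hP - (32 * (℘[L] z - ℘[L] b) ^ 3) * hB

/-- The chord abscissa, continued analytically to `0`. -/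
def chordXExt (b z : ℂ) : ℂ :=
  let m := ℘'[L - (0 : ℂ)] z - ℘'[L] b
  let k := wpReg L z - ℘[L] b
  (-3 * k - 2 * ℘[L] b - z * m + z ^ 4 * m ^ 2 / 4
      - z ^ 2 * (k ^ 2 + 2 * k * (k + 2 * ℘[L] b))
      - z ^ 4 * k ^ 2 * (k + 2 * ℘[L] b)) / (1 + z ^ 2 * k) ^ 2

theorem analyticAt_chordXExt (b : ℂ) : AnalyticAt ℂ (chordXExt L b) 0 := by
  have h1 : AnalyticAt ℂ (wpReg L) 0 := L.analyticAt_weierstrassPExcept 0
  have h2 := L.analyticAt_derivWeierstrassPExcept 0
  unfold chordXExt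
  exact AnalyticAt.div (by fun_prop) (by fun_prop) (by simp)

theorem chordXExt_zero (b : ℂ) : chordXExt L b 0 = ℘[L] b := by
  simp [chordXExt, wpReg]
  ring

theorem deriv_chordXExt_zero (b : ℂ) : deriv (chordXExt L b) 0 = ℘'[L] b := by
  have h1 : HasDerivAt (wpReg L) 0 0 := by
    have h := ((L.analyticAt_weierstrassPExcept 0).differentiableAt).hasDerivAt
    simpa using h
  have h2 : HasDerivAt ℘'[L - (0 : ℂ)] (deriv ℘'[L - (0 : ℂ)] 0) 0 :=
    (L.analyticAt_derivWeierstrassPExcept 0).differentiableAt.hasDerivAt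
  have hm := h2.sub_const (℘'[L] b)
  have hk := h1.sub_const (℘[L] b)
  have hid := hasDerivAt_id (0 : ℂ)
  have hsq := hid.fun_pow 2
  have hq := hid.fun_pow 4
  have hk2 := hk.add_const (2 * ℘[L] b)
  have hnum := (((((hk.const_mul (-3)).sub_const (2 * ℘[L] b)).fun_sub (hid.fun_mul hm)).fun_add
    ((hq.fun_mul (hm.fun_pow 2)).div_const 4)).fun_sub
    (hsq.fun_mul ((hk.fun_pow 2).fun_add ((hk.const_mul 2).fun_mul hk2)))).fun_sub
    ((hq.fun_mul (hk.fun_pow 2)).fun_mul hk2)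
  have hden := ((hsq.fun_mul hk).const_add 1).fun_pow 2
  have h := hnum.fun_div hden (by simp)
  simp only [id_eq] at h
  refine (h.congr_deriv ?_).deriv
  simp

theorem chordX_eventuallyEq_ext (b : ℂ) :
    chordX L b =ᶠ[𝓝[≠] (0 : ℂ)] chordXExt L b := by
  filter_upwards [self_mem_nhdsWithin, eventually_wp_ne_zero L (℘[L] b)] with z hz hne
  have hz0 : z ≠ 0 := hz
  have hD : ℘[L] z - ℘[L] b = (1 + z ^ 2 * (wpReg L z - ℘[L] b)) / z ^ 2 := by
    rw [wp_eq_reg L z]; field_simp; ring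
  have h1 : (1 + z ^ 2 * (wpReg L z - ℘[L] b)) ≠ 0 := fun h => by
    rw [h, zero_div] at hD
    exact hne (sub_eq_zero.mp hD)
  rw [chordX, hD, dwp_eq_reg L z, wp_eq_reg L z, chordXExt]
  field_simp
  ring

/-- Uniqueness for `u'' = g u` with vanishing initial data. -/
theorem analyticOrderAt_eq_top_of_deriv_deriv {u g : ℂ → ℂ} (hu : AnalyticAt ℂ u 0)
    (hg : AnalyticAt ℂ g 0) (h0 : u 0 = 0) (h1 : deriv u 0 = 0)
    (hode : deriv (deriv u) =ᶠ[𝓝 0] g * u) : analyticOrderAt u 0 = ⊤ := by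
  have e1 := hu.analyticOrderAt_deriv_add_one
  have e2 := hu.deriv.analyticOrderAt_deriv_add_one
  simp only [h0, h1, sub_zero] at e1 e2
  rw [analyticOrderAt_congr hode, analyticOrderAt_mul hg hu] at e2
  by_contra hne
  obtain ⟨n, hn⟩ := ENat.ne_top_iff_exists.mp hne
  have h3 : (analyticOrderAt g 0 + analyticOrderAt u 0) + 1 + 1 = analyticOrderAt u 0 := by
    rw [e2, e1]
  rw [← hn] at h3
  cases hgo : analyticOrderAt g 0 with
  | top => rw [hgo] at h3; simp at h3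
  | coe m =>
    rw [hgo] at h3
    norm_cast at h3
    omega

theorem eventually_wp_add_eq_chordX {b : ℂ} (hb : b ∉ L.lattice) :
    (fun z => ℘[L] (z + b)) =ᶠ[𝓝[≠] (0 : ℂ)] chordX L b := by
  have hadd : ContinuousAt (fun z : ℂ => z + b) 0 := by fun_prop
  have hnb : ∀ᶠ z in 𝓝 (0 : ℂ), z + b ∉ L.lattice :=
    hadd.eventually_mem (L.isClosed_lattice.isOpen_compl.mem_nhds (by simpa using hb))
  set φ₁ : ℂ → ℂ := fun z => ℘[L] (z + b)
  set φ₂ : ℂ → ℂ := chordXExt L b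
  have hφ₁ : AnalyticAt ℂ φ₁ 0 := by
    refine AnalyticAt.comp (g := ℘[L]) (f := fun z => z + b) ?_ (by fun_prop)
    simpa using L.analyticOnNhd_weierstrassP b hb
  have hφ₂ : AnalyticAt ℂ φ₂ 0 := analyticAt_chordXExt L b
  have d1 : ∀ᶠ z in 𝓝 (0 : ℂ), deriv (deriv φ₁) z = 6 * φ₁ z ^ 2 - L.g₂ / 2 := by
    have e : deriv φ₁ =ᶠ[𝓝 (0 : ℂ)] fun z => ℘'[L] (z + b) := by
      filter_upwards [hnb] with z hz
      exact ((hasDerivAt_wp L hz).comp_add_const z b).deriv
    filter_upwards [e.deriv, hnb] with z hz hz'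
    rw [hz]
    exact ((hasDerivAt_dwp L hz').comp_add_const z b).deriv
  have hgood : ∀ᶠ z in 𝓝[≠] (0 : ℂ), z ∉ L.lattice ∧ ℘[L] z ≠ ℘[L] b :=
    (eventually_notMem_lattice L 0).and (eventually_wp_ne_zero L _)
  have hev := eventually_nhdsNE_eventually_nhds_iff.mpr
    (hgood.and (chordX_eventuallyEq_ext L b))
  have d2 : ∀ᶠ z in 𝓝[≠] (0 : ℂ), deriv (deriv φ₂) z = 6 * φ₂ z ^ 2 - L.g₂ / 2 := by
    filter_upwards [hev] with z hz
    obtain ⟨⟨hz1, hz2⟩, hz3⟩ := hz.self_of_nhds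
    have e : φ₂ =ᶠ[𝓝 z] chordX L b := hz.mono fun w hw => hw.2.symm
    have e' : deriv (chordX L b) =ᶠ[𝓝 z] chordY L b :=
      hz.mono fun w hw => (hasDerivAt_chordX L hb hw.1.1 hw.1.2).deriv
    rw [e.deriv.deriv_eq, e'.deriv_eq, (hasDerivAt_chordY L hb hz1 hz2).deriv, hz3]
  have d2' : ∀ᶠ z in 𝓝 (0 : ℂ), deriv (deriv φ₂) z = 6 * φ₂ z ^ 2 - L.g₂ / 2 :=
    (hφ₂.deriv.deriv.frequently_eq_iff_eventually_eq (by fun_prop)).mp d2.frequently
  have hdiff : ∀ᶠ z in 𝓝 (0 : ℂ), DifferentiableAt ℂ φ₁ z ∧ DifferentiableAt ℂ φ₂ z ∧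
      DifferentiableAt ℂ (deriv φ₁) z ∧ DifferentiableAt ℂ (deriv φ₂) z := by
    filter_upwards [hφ₁.eventually_analyticAt, hφ₂.eventually_analyticAt] with z h1 h2
    exact ⟨h1.differentiableAt, h2.differentiableAt, h1.deriv.differentiableAt,
      h2.deriv.differentiableAt⟩
  have hord := analyticOrderAt_eq_top_of_deriv_deriv (u := fun z => φ₁ z - φ₂ z)
    (g := fun z => 6 * (φ₁ z + φ₂ z)) (by fun_prop) (by fun_prop)
    (by simp [φ₁, φ₂, chordXExt_zero]) ?_ ?_
  · have hz := analyticOrderAt_eq_top.mp hord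
    filter_upwards [mem_nhdsWithin_of_mem_nhds hz, chordX_eventuallyEq_ext L b] with z h1 h2
    exact (sub_eq_zero.mp h1).trans h2.symm
  · rw [deriv_fun_sub hφ₁.differentiableAt hφ₂.differentiableAt, deriv_chordXExt_zero,
      (((zero_add b).symm ▸ hasDerivAt_wp L hb : HasDerivAt ℘[L] (℘'[L] b) (0 + b)).comp_add_const
        0 b).deriv, sub_self]
  · filter_upwards [d1, d2', hdiff.eventually_nhds] with z h1 h2 h3
    obtain ⟨-, -, h5, h6⟩ := h3.self_of_nhds
    have e : deriv (fun w => φ₁ w - φ₂ w) =ᶠ[𝓝 z] fun w => deriv φ₁ w - deriv φ₂ w :=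
      h3.mono fun w hw => deriv_fun_sub hw.1 hw.2.1
    rw [e.deriv_eq, deriv_fun_sub h5 h6, h1, h2, Pi.mul_apply]
    ring

/-- The addition theorem in polynomial form. -/
theorem wp_add_polynomial {b z : ℂ} (hb : b ∉ L.lattice) (hz : z ∉ L.lattice)
    (hzb : z + b ∉ L.lattice) :
    (℘[L] (z + b) + ℘[L] z + ℘[L] b) * (℘[L] z - ℘[L] b) ^ 2
      - (℘'[L] z - ℘'[L] b) ^ 2 / 4 = 0 := by
  set T : Set ℂ := (L.lattice : Set ℂ) ∪ (fun x => x - b) '' (L.lattice : Set ℂ) with hTdef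
  have hT : T.Countable := (countable_lattice L).union ((countable_lattice L).image _)
  have hmem : ∀ w ∈ Tᶜ, w ∉ L.lattice ∧ w + b ∉ L.lattice := by
    intro w hw
    simp only [hTdef, mem_compl_iff, mem_union, not_or, mem_image, SetLike.mem_coe,
      not_exists, not_and] at hw
    exact ⟨hw.1, fun h => hw.2 (w + b) h (by ring)⟩
  have hF : AnalyticOnNhd ℂ (fun w => (℘[L] (w + b) + ℘[L] w + ℘[L] b) * (℘[L] w - ℘[L] b) ^ 2
      - (℘'[L] w - ℘'[L] b) ^ 2 / 4) Tᶜ := by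
    intro w hw
    have h1 := L.analyticOnNhd_weierstrassP w (hmem w hw).1
    have h2 : AnalyticAt ℂ (fun x => ℘[L] (x + b)) w :=
      AnalyticAt.comp (g := ℘[L]) (f := fun x => x + b)
        (L.analyticOnNhd_weierstrassP _ (hmem w hw).2) (by fun_prop)
    have h3 := L.analyticOnNhd_derivWeierstrassP w (hmem w hw).1
    fun_prop
  have hadd : ContinuousAt (fun w : ℂ => w + b) 0 := by fun_prop
  have hnb : ∀ᶠ w in 𝓝 (0 : ℂ), w + b ∉ L.lattice :=
    hadd.eventually_mem (L.isClosed_lattice.isOpen_compl.mem_nhds (by simpa using hb))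
  obtain ⟨x, ⟨hxT, hx⟩⟩ : ∃ x, x ∈ Tᶜ ∧ ∀ᶠ w in 𝓝 x,
      (℘[L] (w + b) + ℘[L] w + ℘[L] b) * (℘[L] w - ℘[L] b) ^ 2
        - (℘'[L] w - ℘'[L] b) ^ 2 / 4 = 0 := by
    have := eventually_nhdsNE_eventually_nhds_iff.mpr
      ((eventually_wp_add_eq_chordX L hb).and (eventually_wp_ne_zero L (℘[L] b)))
    obtain ⟨x, ⟨hx1, hx2⟩, hx3⟩ := (((eventually_notMem_lattice L 0).and
      (mem_nhdsWithin_of_mem_nhds hnb)).and this).exists
    refine ⟨x, ?_, hx3.mono fun w hw => ?_⟩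
    · simp only [hTdef, mem_compl_iff, mem_union, not_or, mem_image, SetLike.mem_coe,
        not_exists, not_and]
      exact ⟨hx1, fun y hy hyx => hx2 (by rw [← hyx]; simpa using hy)⟩
    · have hw1 : ℘[L] (w + b) = chordX L b w := hw.1
      rw [hw1, chordX]
      field_simp [sub_ne_zero.mpr hw.2]
      ring
  exact hF.eqOn_zero_of_preconnected_of_eventuallyEq_zero
    (isPreconnected_compl_of_countable hT) hxT hx
    (show z ∈ Tᶜ by
      simp only [hTdef, mem_compl_iff, mem_union, not_or, mem_image, SetLike.mem_coe,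
        not_exists, not_and]
      exact ⟨hz, fun y hy hyx => hzb (by rw [← hyx]; simpa using hy)⟩)

theorem wp_ne_imp_add_notMem {b z : ℂ} (h : ℘[L] z ≠ ℘[L] b) : z + b ∉ L.lattice := by
  intro hm
  exact h (by
    have := L.weierstrassP_add_coe (-b) ⟨z + b, hm⟩
    simpa using this)

/-- **Addition theorem**, abscissa. -/
theorem wp_add {b z : ℂ} (hb : b ∉ L.lattice) (hz : z ∉ L.lattice)
    (hne : ℘[L] z ≠ ℘[L] b) : ℘[L] (z + b) = chordX L b z := by
  have h := wp_add_polynomial L hb hz (wp_ne_imp_add_notMem L hne)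
  rw [chordX]
  field_simp [sub_ne_zero.mpr hne]
  linear_combination 4 * h

/-- **Addition theorem**, ordinate. -/
theorem dwp_add {b z : ℂ} (hb : b ∉ L.lattice) (hz : z ∉ L.lattice)
    (hne : ℘[L] z ≠ ℘[L] b) : ℘'[L] (z + b) = chordY L b z := by
  have h1 := (hasDerivAt_wp L (wp_ne_imp_add_notMem L hne)).comp_add_const z b
  have h2 := hasDerivAt_chordX L hb hz hne
  have e : (fun w => ℘[L] (w + b)) =ᶠ[𝓝 z] chordX L b := by
    have hc : ∀ᶠ w in 𝓝 z, ℘[L] w ≠ ℘[L] b :=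
      (L.analyticOnNhd_weierstrassP z hz).continuousAt.eventually_ne hne
    filter_upwards [hc, L.isClosed_lattice.isOpen_compl.mem_nhds hz] with w hw hw'
    exact wp_add L hb hw' hw
  exact (h1.congr_of_eventuallyEq e.symm).unique h2

end Fermat.Agent.RED.Kernel
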