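import Fermat.Agent.RED.Kernel.WPAddition
import Mathlib.AlgebraicGeometry.EllipticCurve.Affine.Point

/-!
# The homomorphism `ℂ → E_L(ℂ)` given by `℘` and `℘'`
-/

set_option autoImplicit false

noncomputable section

namespace Fermat.Agent.RED.Kernel

open Filter Topology Set WeierstrassCurve
open scoped PeriodPair

variable (L : PeriodPair)

/-- `y² = x³ - g₂/4 x - g₃/4`. -/
abbrev wpCurve : WeierstrassCurve ℂ := ⟨0, 0, 0, -L.g₂ / 4, -L.g₃ / 4⟩

theorem wpCurve_equation {z : ℂ} (hz : z ∉ L.lattice) :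
    (wpCurve L).toAffine.Equation (℘[L] z) (℘'[L] z / 2) := by
  rw [Affine.equation_iff]
  simp only
  linear_combination (L.derivWeierstrassP_sq z hz) / 4

variable (hΔ : (wpCurve L).Δ ≠ 0)

/-- The parametrisation of `wpCurve L` by `℘` and `℘'`. -/
def wpPoint (z : ℂ) : (wpCurve L).toAffine.Point :=
  haveI := Classical.propDecidable (z ∈ L.lattice)
  if hz : z ∈ L.lattice then .zero
  else .some _ _
    (((wpCurve L).toAffine.equation_iff_nonsingular_of_Δ_ne_zero hΔ).mp (wpCurve_equation L hz))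

theorem wpPoint_of_mem {z : ℂ} (hz : z ∈ L.lattice) : wpPoint L hΔ z = 0 := by
  simp only [wpPoint, dif_pos hz]
  rfl

theorem wpPoint_of_notMem {z : ℂ} (hz : z ∉ L.lattice) :
    ∃ h, wpPoint L hΔ z = .some (℘[L] z) (℘'[L] z / 2) h :=
  ⟨((wpCurve L).toAffine.equation_iff_nonsingular_of_Δ_ne_zero hΔ).mp (wpCurve_equation L hz),
    by simp only [wpPoint, dif_neg hz]⟩

theorem wpPoint_eq_zero_iff {z : ℂ} : wpPoint L hΔ z = 0 ↔ z ∈ L.lattice := by
  refine ⟨fun h => ?_, wpPoint_of_mem L hΔ⟩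
  by_contra hz
  obtain ⟨_, he⟩ := wpPoint_of_notMem L hΔ hz
  rw [he] at h
  exact Affine.Point.some_ne_zero _ h

theorem wpPoint_add_lattice (z : ℂ) {l : ℂ} (hl : l ∈ L.lattice) :
    wpPoint L hΔ (z + l) = wpPoint L hΔ z := by
  by_cases hz : z ∈ L.lattice
  · rw [wpPoint_of_mem L hΔ hz, wpPoint_of_mem L hΔ (add_mem hz hl)]
  · have hzl : z + l ∉ L.lattice := fun h => hz (by simpa using sub_mem h hl)
    simp only [wpPoint, dif_neg hz, dif_neg hzl, Affine.Point.some.injEq]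
    exact ⟨L.weierstrassP_add_coe z ⟨l, hl⟩, by rw [L.derivWeierstrassP_add_coe z ⟨l, hl⟩]⟩

theorem wpPoint_neg (z : ℂ) : wpPoint L hΔ (-z) = -wpPoint L hΔ z := by
  by_cases hz : z ∈ L.lattice
  · rw [wpPoint_of_mem L hΔ hz, wpPoint_of_mem L hΔ (neg_mem hz), neg_zero]
  · have hz' : -z ∉ L.lattice := fun h => hz (by simpa using neg_mem h)
    simp only [wpPoint, dif_neg hz, dif_neg hz', Affine.Point.neg_some,
      Affine.Point.some.injEq]
    exact ⟨L.weierstrassP_neg z, by simp [Affine.negY]; ring⟩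

theorem wpPoint_add_of_ne {a b : ℂ} (ha : a ∉ L.lattice) (hb : b ∉ L.lattice)
    (hne : ℘[L] a ≠ ℘[L] b) :
    wpPoint L hΔ (a + b) = wpPoint L hΔ a + wpPoint L hΔ b := by
  have hab := wp_ne_imp_add_notMem L hne
  simp only [wpPoint, dif_neg ha, dif_neg hb, dif_neg hab, Affine.Point.add_of_X_ne hne,
    Affine.Point.some.injEq, Affine.slope_of_X_ne hne]
  have hs : (℘'[L] a / 2 - ℘'[L] b / 2) / (℘[L] a - ℘[L] b) =
      (℘'[L] a - ℘'[L] b) / (℘[L] a - ℘[L] b) / 2 := by ring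
  rw [hs]
  refine ⟨?_, ?_⟩
  · rw [wp_add L hb ha hne, chordX]
    simp [Affine.addX]
    ring
  · rw [dwp_add L hb ha hne, chordY, chordX]
    simp [Affine.addY, Affine.negAddY, Affine.negY, Affine.addX]
    ring

theorem wpPoint_add (a b : ℂ) : wpPoint L hΔ (a + b) = wpPoint L hΔ a + wpPoint L hΔ b := by
  by_cases ha : a ∈ L.lattice
  · rw [wpPoint_of_mem L hΔ ha, zero_add, add_comm, wpPoint_add_lattice L hΔ b ha]
  by_cases hb : b ∈ L.lattice
  · rw [wpPoint_of_mem L hΔ hb, add_zero, wpPoint_add_lattice L hΔ a hb]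
  by_cases hab : a + b ∈ L.lattice
  · rw [wpPoint_of_mem L hΔ hab]
    have h : wpPoint L hΔ b = -wpPoint L hΔ a := by
      rw [← wpPoint_neg, show b = -a + (a + b) by ring, wpPoint_add_lattice L hΔ (-a) hab]
    rw [h, add_neg_cancel]
  have hsh : ∀ᶠ c in 𝓝[≠] (0 : ℂ), ℘[L] (b + c) ≠ ℘[L] a := by
    have ht : Tendsto (fun c => b + c) (𝓝[≠] (0 : ℂ)) (𝓝[≠] b) := by
      refine tendsto_nhdsWithin_iff.mpr ⟨?_, ?_⟩
      · exact ((continuous_const_add b).tendsto' 0 b (add_zero b)).mono_left nhdsWithin_le_nhds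
      · filter_upwards [self_mem_nhdsWithin] with c hc
        simpa using hc
    exact ht.eventually (eventually_wp_ne L hb _)
  have hbc : ∀ᶠ c in 𝓝[≠] (0 : ℂ), b + c ∉ L.lattice :=
    mem_nhdsWithin_of_mem_nhds ((continuous_const_add b).continuousAt.eventually_mem
      (L.isClosed_lattice.isOpen_compl.mem_nhds (by simpa using hb)))
  obtain ⟨c, hc0, hc1, hc2, hc3, hc4⟩ := ((eventually_notMem_lattice L 0).and
    ((eventually_wp_ne_zero L (℘[L] (a + b))).and
      ((eventually_wp_ne_zero L (℘[L] b)).and (hsh.and hbc)))).exists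
  have e1 := wpPoint_add_of_ne L hΔ hab hc0 (Ne.symm hc1)
  have e2 := wpPoint_add_of_ne L hΔ ha hc4 (Ne.symm hc3)
  have e3 := wpPoint_add_of_ne L hΔ hb hc0 (Ne.symm hc2)
  rw [← add_assoc, e1, e3, ← add_assoc] at e2
  exact add_right_cancel e2

/-- The parametrisation as a homomorphism. -/
def wpPointHom : ℂ →+ (wpCurve L).toAffine.Point where
  toFun := wpPoint L hΔ
  map_zero' := wpPoint_of_mem L hΔ (zero_mem _)
  map_add' := wpPoint_add L hΔ

@[simp] theorem wpPointHom_apply (z : ℂ) : wpPointHom L hΔ z = wpPoint L hΔ z := rfl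

end Fermat.Agent.RED.Kernel
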